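import Mathlib
import Fermat.Agent.LT.T3.H315.AbelCut
import Fermat.Agent.LT.T3.H166.SphCont

/-!
# Row LT, tower T3, leaf AS.2.6 `CalcC` (registry 1175) -- SPARE of helper174 (registry 1326)

OFF-MAIN.  Complete proofs, nothing assumed.  Imports: Mathlib and the byte-identical copies of
`LT/T3/H315/AbelCut.lean` (helper315@4ea336ee2, sha256 446d055e: the frozen Props `RegC`, `CalcC`)
with its closure (`H736/ASSpec` a661c778, `H614/AbelCalc` 2e11bd46, `EKSpec` d0ed12cc,
`Spec` 44de320b, `H556/A0` 66d3374a) and of `LT/T3/H166/SphCont.lean` (helper166@dbeec0cc8,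
sha256 ef0eb3dd).

RESULT: `calcC_of_reg174 : H315.RegC → H315.CalcC`.  `RegC` is a hypothesis of the top
`abelCplx_of315` anyway; it is used ONLY for the continuity of the integrand on `ℝ² × ℂ`
(hence its integrability, which Fubini needs).  So the top reads
`abelCplx_of315 hreg hn hs ha hi (calcC_of_reg174 hreg)`.

## Route

* `chD_iwa174`, `logdet_iwa174` : `chD614 (iwa s x) = cosh u + (e^u / 2) |x|²`, `u = s₁ - s₂`,
  `log |det (iwa s x)| = s₁ + s₂ =: c`;
* `inner174` : `∫_ℂ φ₀ F (iwa s x) dx = 2π e^{-u} G_c(u)`, `G_c(u) = ∫_{cosh u}^∞ φ₀ ρ_c`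
  (`integral_complex_affine_sq614` of helper614; no integrability needed);
* `integral_exp_gTail174` (ONE VARIABLE): `∫_ℝ 2π e^{-u} G(u) du = ∫_ℝ E` for every even test
  function `E`: `G` is even, so the integral is `4π ∫_0^∞ cosh u G(u) du`; integration by parts
  with the primitive `sinh u G(u)`, `G'(u) = - φ₀(cosh u) ρ(cosh u) sinh u = - u ρ(cosh u)`
  (`hasDerivAt_gTail174`, `sph0_cosh174`); `spherical_zero` of helper614;
* `sliceE_isEvenTest174` : the slices `E_c` of a symmetric bump are even test functions with a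
  uniform radius and vanish identically for `|c|` large; `hasCompactSupport_phi174` : the
  integrand is supported in an explicit box;
* `lin174` : the linear change of variables `(c, u) ↦ ((c+u)/2, (c-u)/2)` is applied to BOTH
  sides (`Measure.map_linearMap_addHaar_eq_smul_addHaar`), so its determinant cancels and is
  never computed; Fubini on both sides; the inner integrals agree by the one-variable identity.
-/

set_option autoImplicit false

open MeasureTheory Set Real Filter Topology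
open Fermat.Agent.LT.T3.H614 Fermat.Agent.LT.T3.H315 Fermat.Agent.LT.T3.AS
  Fermat.Agent.LT.T3.H166

noncomputable section

namespace Fermat.Agent.LT.T3.H174

/-! ## 1. The one-variable identity -/

/-- The radial integrand `φ₀ ρ`, `ρ = abelInv614 E`. -/
def gRad174 (E : ℝ → ℂ) (y : ℝ) : ℂ := ((sph0 y : ℝ) : ℂ) * abelInv614 E y

/-- The tail `G(u) = ∫_{cosh u}^∞ φ₀ ρ`. -/
def gTail174 (E : ℝ → ℂ) (u : ℝ) : ℂ := ∫ y in Ioi (cosh u), gRad174 E y

variable {E : ℝ → ℂ} {R : ℝ}

theorem continuous_gRad174 (h : IsEvenTest614 E R) : Continuous (gRad174 E) :=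
  (Complex.continuous_ofReal.comp continuous_sph0_166).mul h.continuous_abelInv

theorem gRad174_eq_zero (h : IsEvenTest614 E R) {y : ℝ} (hy : cosh R < y) : gRad174 E y = 0 := by
  unfold gRad174
  rw [h.abelInv_eq_zero hy, mul_zero]

theorem integrableOn_gRad174 (h : IsEvenTest614 E R) (a : ℝ) :
    IntegrableOn (gRad174 E) (Ioi a) := by
  have hc := continuous_gRad174 h
  have h1 : IntegrableOn (gRad174 E) (Ioc a (max a (cosh R))) :=
    (hc.integrableOn_Icc (a := a) (b := max a (cosh R))).mono_set Ioc_subset_Icc_self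
  have h2 : IntegrableOn (gRad174 E) (Ioi (max a (cosh R))) := by
    have : ∀ x ∈ Ioi (max a (cosh R)), gRad174 E x = (fun _ => (0 : ℂ)) x := by
      intro x hx
      exact gRad174_eq_zero h (lt_of_le_of_lt (le_max_right _ _) hx)
    exact (integrableOn_zero).congr_fun (fun x hx => (this x hx).symm) measurableSet_Ioi
  have := h1.union h2
  rwa [Ioc_union_Ioi_eq_Ioi (le_max_left _ _)] at this

theorem integral_Ioi_gRad174_eq_zero (h : IsEvenTest614 E R) {a : ℝ} (ha : cosh R ≤ a) :
    ∫ y in Ioi a, gRad174 E y = 0 := by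
  have : ∀ x ∈ Ioi a, gRad174 E x = (0 : ℂ) := fun x hx =>
    gRad174_eq_zero h (lt_of_le_of_lt ha hx)
  rw [setIntegral_congr_fun measurableSet_Ioi this]
  simp

/-- The tail is an interval integral with a fixed upper limit. -/
theorem gTail174_eq_interval (h : IsEvenTest614 E R) (u : ℝ) :
    gTail174 E u = ∫ y in (cosh u)..(cosh R), gRad174 E y := by
  unfold gTail174
  rcases le_total (cosh u) (cosh R) with hle | hle
  · have := intervalIntegral.integral_Ioi_sub_Ioi (integrableOn_gRad174 h (cosh u)) hle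
    rw [integral_Ioi_gRad174_eq_zero h le_rfl, sub_zero] at this
    exact this
  · rw [integral_Ioi_gRad174_eq_zero h hle, intervalIntegral.integral_symm]
    have := intervalIntegral.integral_Ioi_sub_Ioi (integrableOn_gRad174 h (cosh R)) hle
    rw [integral_Ioi_gRad174_eq_zero h le_rfl, integral_Ioi_gRad174_eq_zero h hle, sub_zero]
      at this
    rw [← this, neg_zero]

theorem gTail174_neg (u : ℝ) : gTail174 E (-u) = gTail174 E u := by
  unfold gTail174
  rw [Real.cosh_neg]

theorem gTail174_eq_zero (h : IsEvenTest614 E R) {u : ℝ} (hu : |R| ≤ |u|) :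
    gTail174 E u = 0 :=
  integral_Ioi_gRad174_eq_zero h (Real.cosh_le_cosh.2 hu)

theorem hasDerivAt_gTail174 (h : IsEvenTest614 E R) (u : ℝ) :
    HasDerivAt (gTail174 E) (sinh u • (-gRad174 E (cosh u))) u := by
  have hc := continuous_gRad174 h
  have h1 : HasDerivAt (fun a => ∫ y in a..(cosh R), gRad174 E y) (-gRad174 E (cosh u))
      (cosh u) :=
    intervalIntegral.integral_hasDerivAt_left (hc.intervalIntegrable _ _)
      (hc.stronglyMeasurableAtFilter _ _) hc.continuousAt
  have h2 : HasDerivAt cosh (sinh u) u := Real.hasDerivAt_cosh u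
  have h3 := h1.scomp u h2
  have e : gTail174 E = (fun a => ∫ y in a..(cosh R), gRad174 E y) ∘ cosh := by
    funext v
    exact gTail174_eq_interval h v
  rw [e]
  exact h3

theorem continuous_gTail174 (h : IsEvenTest614 E R) : Continuous (gTail174 E) :=
  continuous_iff_continuousAt.2 fun u => (hasDerivAt_gTail174 h u).continuousAt

theorem sph0_cosh174 {u : ℝ} (hu : 0 < u) : sph0 (cosh u) = u / sinh u := by
  unfold sph0
  have h1 : ¬ cosh u ≤ 1 := not_le.2 (Real.one_lt_cosh.2 hu.ne')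
  rw [if_neg h1, Real.arcosh_cosh hu.le]
  congr 1
  have : cosh u ^ 2 - 1 = sinh u ^ 2 := by
    have := Real.cosh_sq u
    linarith
  rw [this, Real.sqrt_sq (Real.sinh_nonneg_iff.2 hu.le)]

/-- Continuous functions vanishing outside `[-|R|, |R|]` are integrable. -/
theorem integrable_of_zero_outside174 {f : ℝ → ℂ} (hf : Continuous f)
    (h0 : ∀ u : ℝ, |R| < |u| → f u = 0) : Integrable f := by
  apply hf.integrable_of_hasCompactSupport
  apply HasCompactSupport.of_support_subset_isCompact (isCompact_Icc (a := -|R|) (b := |R|))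
  intro u hu
  rw [Function.mem_support] at hu
  rw [mem_Icc, ← abs_le]
  by_contra hcon
  exact hu (h0 u (not_le.1 hcon))

/-- Integration by parts: `∫_0^∞ cosh u G(u) du = ∫_0^∞ u sinh u ρ(cosh u) du`. -/
theorem integral_cosh_gTail174 (h : IsEvenTest614 E R) :
    ∫ u in Ioi (0 : ℝ), cosh u • gTail174 E u
      = ∫ u in Ioi (0 : ℝ), (u * sinh u) • abelInv614 E (cosh u) := by
  have hGc := continuous_gTail174 h
  have hρc : Continuous fun u : ℝ => abelInv614 E (cosh u) :=
    h.continuous_abelInv.comp Real.continuous_cosh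
  have hI1 : Integrable fun u : ℝ => cosh u • gTail174 E u := by
    refine integrable_of_zero_outside174 (R := R) (Real.continuous_cosh.smul hGc) ?_
    intro u hu
    show cosh u • gTail174 E u = 0
    rw [gTail174_eq_zero h hu.le, smul_zero]
  have hI2 : Integrable fun u : ℝ => (u * sinh u) • abelInv614 E (cosh u) := by
    refine integrable_of_zero_outside174 (R := R)
      ((continuous_id.mul Real.continuous_sinh).smul hρc) ?_
    intro u hu
    show (u * sinh u) • abelInv614 E (cosh u) = 0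
    rw [h.abelInv_eq_zero (Real.cosh_lt_cosh.2 hu), smul_zero]
  -- the primitive
  have hP : ∀ x ∈ Ici (0 : ℝ), HasDerivAt (fun u : ℝ => sinh u • gTail174 E u)
      (cosh x • gTail174 E x + sinh x • (sinh x • (-gRad174 E (cosh x)))) x := by
    intro x _
    have := (Real.hasDerivAt_sinh x).smul (hasDerivAt_gTail174 h x)
    refine HasDerivAt.congr_deriv this ?_
    rw [add_comm]
  have hderiv : ∀ x ∈ Ioi (0 : ℝ),
      cosh x • gTail174 E x + sinh x • (sinh x • (-gRad174 E (cosh x)))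
        = cosh x • gTail174 E x - (x * sinh x) • abelInv614 E (cosh x) := by
    intro x hx
    have hx0 : (0 : ℝ) < x := hx
    have hs : sinh x ≠ 0 := (Real.sinh_pos_iff.2 hx0).ne'
    unfold gRad174
    rw [sph0_cosh174 hx0, sub_eq_add_neg]
    congr 1
    simp only [Complex.real_smul, Complex.ofReal_div, Complex.ofReal_mul]
    have hs' : ((sinh x : ℝ) : ℂ) ≠ 0 := by exact_mod_cast hs
    field_simp
  have hint : IntegrableOn (fun x : ℝ =>
      cosh x • gTail174 E x + sinh x • (sinh x • (-gRad174 E (cosh x)))) (Ioi 0) := by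
    have : IntegrableOn (fun x : ℝ =>
        cosh x • gTail174 E x - (x * sinh x) • abelInv614 E (cosh x)) (Ioi 0) :=
      (hI1.sub hI2).integrableOn
    exact this.congr_fun (fun x hx => (hderiv x hx).symm) measurableSet_Ioi
  have hlim : Tendsto (fun u : ℝ => sinh u • gTail174 E u) atTop (𝓝 0) := by
    apply tendsto_const_nhds.congr'
    filter_upwards [eventually_ge_atTop |R|, eventually_ge_atTop 0] with x hx hx0
    rw [gTail174_eq_zero h (by rw [abs_of_nonneg hx0]; exact hx), smul_zero]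
  have key := integral_Ioi_of_hasDerivAt_of_tendsto' hP hint hlim
  rw [setIntegral_congr_fun measurableSet_Ioi hderiv,
    integral_sub hI1.integrableOn hI2.integrableOn] at key
  simp only [Real.sinh_zero, zero_smul, sub_zero] at key
  exact sub_eq_zero.1 key

/-- `∫_ℝ f = ∫_0^∞ (f(u) + f(-u)) du`. -/
theorem integral_eq_integral_Ioi_add_neg174 {f : ℝ → ℂ} (hf : Integrable f) :
    ∫ u, f u = ∫ u in Ioi (0 : ℝ), (f u + f (-u)) := by
  rw [← intervalIntegral.integral_Iic_add_Ioi hf.integrableOn hf.integrableOn (b := 0)]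
  have h1 := integral_comp_neg_Ioi (0 : ℝ) f
  rw [neg_zero] at h1
  have hneg : IntegrableOn (fun u : ℝ => f (-u)) (Ioi 0) := (hf.comp_neg).integrableOn
  rw [integral_add hf.integrableOn hneg, h1, add_comm]

/-- **The one-variable identity**: `∫_ℝ 2π e^{-u} G(u) du = ∫_ℝ E`. -/
theorem integral_exp_gTail174 (h : IsEvenTest614 E R) :
    ∫ u : ℝ, (2 * π * rexp (-u)) • gTail174 E u = ∫ u, E u := by
  have hGc := continuous_gTail174 h
  have hI : Integrable fun u : ℝ => (2 * π * rexp (-u)) • gTail174 E u := by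
    refine integrable_of_zero_outside174 (R := R)
      ((continuous_const.mul (Real.continuous_exp.comp continuous_neg)).smul hGc) ?_
    intro u hu
    show (2 * π * rexp (-u)) • gTail174 E u = 0
    rw [gTail174_eq_zero h hu.le, smul_zero]
  rw [integral_eq_integral_Ioi_add_neg174 hI, ← h.spherical_zero, ← integral_cosh_gTail174 h,
    ← integral_smul]
  refine setIntegral_congr_fun measurableSet_Ioi (fun u _ => ?_)
  simp only [gTail174_neg, neg_neg]
  rw [← add_smul, smul_smul]
  congr 1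
  rw [Real.cosh_eq]
  ring

/-! ## 2. The slices of a symmetric bump -/

/-- The slices `E_c` are even test functions with a uniform support radius, and vanish
identically for `|c|` large. -/
theorem sliceE_isEvenTest174 {β : ℝ × ℝ → ℂ} (hβ : IsSymBump β) :
    ∃ R : ℝ, 0 < R ∧ (∀ c : ℝ, IsEvenTest614 (sliceE β c) R) ∧
      ∀ c : ℝ, R ≤ |c| → ∀ u : ℝ, sliceE β c u = 0 := by
  obtain ⟨hsm, hsupp, hsym⟩ := hβ
  obtain ⟨M, hM, hM0⟩ := hsupp.exists_pos_le_norm
  have key : ∀ a b : ℝ, (2 * M ≤ |a - b| ∨ 2 * M ≤ |a + b|) → β (a, b) = 0 := by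
    intro a b hab
    apply hM0
    rw [Prod.norm_def]
    by_contra hcon
    rw [not_le, max_lt_iff, Real.norm_eq_abs, Real.norm_eq_abs, abs_lt, abs_lt] at hcon
    obtain ⟨h1, h2⟩ := hcon
    rcases hab with hab | hab
    · have : |a - b| < 2 * M := by
        rw [abs_lt]
        constructor <;> linarith [h1.1, h1.2, h2.1, h2.2]
      linarith
    · have : |a + b| < 2 * M := by
        rw [abs_lt]
        constructor <;> linarith [h1.1, h1.2, h2.1, h2.2]
      linarith
  refine ⟨2 * M, by positivity, fun c => ⟨?_, ?_, ?_⟩, ?_⟩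
  · have h1 : ContDiff ℝ 2 β := by
      have := contDiff_infty.1 hsm 2
      exact_mod_cast this
    have h2 : ContDiff ℝ 2 (fun u : ℝ => ((c + u) / 2, (c - u) / 2)) := by fun_prop
    exact h1.comp h2
  · intro u
    unfold sliceE
    rw [hsym]
    congr 2
    ring
  · intro u hu
    unfold sliceE
    apply key
    left
    have : (c + u) / 2 - (c - u) / 2 = u := by ring
    rw [this]
    exact hu
  · intro c hc u
    unfold sliceE
    apply key
    right
    have : (c + u) / 2 + (c - u) / 2 = c := by ring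
    rw [this]
    exact hc

theorem abelInv614_zero174 (y : ℝ) : abelInv614 (fun _ : ℝ => (0 : ℂ)) y = 0 := by
  unfold abelInv614
  have h1 : deriv (fun _ : ℝ => (0 : ℂ)) = fun _ => 0 := by
    funext t
    exact deriv_const t 0
  split_ifs
  · rw [h1]
    have h2 : deriv (fun _ : ℝ => (0 : ℂ)) 0 = 0 := deriv_const 0 0
    rw [h2, smul_zero]
  · rw [h1, smul_zero]

/-! ## 3. The Iwasawa chart -/

theorem chD_iwa174 (s : ℝ × ℝ) (x : ℂ) :
    chD614 ((iwa s x : GL (Fin 2) ℂ) : Matrix (Fin 2) (Fin 2) ℂ)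
      = cosh (s.1 - s.2) + (rexp (s.1 - s.2) / 2) * ‖x‖ ^ 2 := by
  rw [iwa_coe]
  unfold chD614 hsq614
  rw [Matrix.det_fin_two_of]
  simp only [Matrix.of_apply, Matrix.cons_val', Matrix.cons_val_zero, Matrix.cons_val_one,
    Matrix.cons_val_fin_one, mul_zero, sub_zero, norm_mul, norm_zero, Complex.norm_real,
    Real.norm_eq_abs, abs_of_pos (Real.exp_pos _)]
  rw [Real.cosh_eq, Real.exp_sub, neg_sub, Real.exp_sub]
  have h1 := Real.exp_pos s.1
  have h2 := Real.exp_pos s.2
  field_simp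
  ring

theorem logdet_iwa174 (s : ℝ × ℝ) (x : ℂ) :
    Real.log ‖((iwa s x : GL (Fin 2) ℂ) : Matrix (Fin 2) (Fin 2) ℂ).det‖ = s.1 + s.2 := by
  rw [iwa_coe, Matrix.det_fin_two_of]
  simp only [mul_zero, sub_zero, norm_mul, Complex.norm_real, Real.norm_eq_abs,
    abs_of_pos (Real.exp_pos _)]
  rw [← Real.exp_add, Real.log_exp]

/-- The integrand of `CalcC` on `ℝ² × ℂ`. -/
def phi174 (β : ℝ × ℝ → ℂ) (p : (ℝ × ℝ) × ℂ) : ℂ :=
  ((sph0 (chD614 ((iwa p.1 p.2 : GL (Fin 2) ℂ) : Matrix (Fin 2) (Fin 2) ℂ)) : ℝ) : ℂ)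
    * abelFn β (iwa p.1 p.2)

theorem phi174_eq (β : ℝ × ℝ → ℂ) (s : ℝ × ℝ) (x : ℂ) :
    phi174 β (s, x) = gRad174 (sliceE β (s.1 + s.2))
      (cosh (s.1 - s.2) + (rexp (s.1 - s.2) / 2) * ‖x‖ ^ 2) := by
  unfold phi174 gRad174 abelFn
  simp only [chD_iwa174, logdet_iwa174]

/-- The inner integral in closed form. -/
theorem inner174 (β : ℝ × ℝ → ℂ) (s : ℝ × ℝ) :
    ∫ x : ℂ, phi174 β (s, x)
      = (2 * π * rexp (-(s.1 - s.2))) • gTail174 (sliceE β (s.1 + s.2)) (s.1 - s.2) := by
  simp_rw [phi174_eq]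
  rw [integral_complex_affine_sq614 (gRad174 _) _ (by positivity)]
  unfold gTail174
  congr 1
  rw [Real.exp_neg]
  have := Real.exp_pos (s.1 - s.2)
  field_simp

theorem continuous_iwa174 : Continuous fun p : (ℝ × ℝ) × ℂ => iwa p.1 p.2 := by
  rw [Units.continuous_iff]
  constructor
  · show Continuous fun p : (ℝ × ℝ) × ℂ =>
      ((iwa p.1 p.2 : GL (Fin 2) ℂ) : Matrix (Fin 2) (Fin 2) ℂ)
    simp only [iwa_coe]
    refine continuous_matrix ?_
    intro i j
    fin_cases i <;> fin_cases j <;> simp <;> fun_prop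
  · have e : (fun p : (ℝ × ℝ) × ℂ =>
        (((iwa p.1 p.2)⁻¹ : GL (Fin 2) ℂ) : Matrix (Fin 2) (Fin 2) ℂ))
        = fun p : (ℝ × ℝ) × ℂ => !![((rexp (-p.1.1) : ℝ) : ℂ),
            -(((rexp (-p.1.1) : ℝ) : ℂ) * (((rexp p.1.1 : ℝ) : ℂ) * p.2)
              * ((rexp (-p.1.2) : ℝ) : ℂ)); 0, ((rexp (-p.1.2) : ℝ) : ℂ)] := by
      funext p
      show !![(((expU p.1.1)⁻¹ : ℂˣ) : ℂ),
          -((((expU p.1.1)⁻¹ : ℂˣ) : ℂ) * (((rexp p.1.1 : ℝ) : ℂ) * p.2)
            * (((expU p.1.2)⁻¹ : ℂˣ) : ℂ)); 0, (((expU p.1.2)⁻¹ : ℂˣ) : ℂ)] = _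
      have hinv : ∀ t : ℝ, (((expU t)⁻¹ : ℂˣ) : ℂ) = ((rexp (-t) : ℝ) : ℂ) := by
        intro t
        rw [Units.val_inv_eq_inv_val, Real.exp_neg, Complex.ofReal_inv]
        rfl
      rw [hinv, hinv]
    rw [e]
    refine continuous_matrix ?_
    intro i j
    fin_cases i <;> fin_cases j <;> simp <;> fun_prop

theorem continuous_phi174 (hreg : RegC) {β : ℝ × ℝ → ℂ} (hβ : IsSymBump β) :
    Continuous (phi174 β) := by
  have h1 : Continuous fun p : (ℝ × ℝ) × ℂ =>
      ((sph0 (chD614 ((iwa p.1 p.2 : GL (Fin 2) ℂ) : Matrix (Fin 2) (Fin 2) ℂ)) : ℝ) : ℂ) :=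
    sphContC166.comp continuous_iwa174
  have h2 : Continuous fun p : (ℝ × ℝ) × ℂ => abelFn β (iwa p.1 p.2) :=
    (hreg β hβ).cont.comp continuous_iwa174
  exact h1.mul h2

theorem hasCompactSupport_phi174 {β : ℝ × ℝ → ℂ} (hβ : IsSymBump β) :
    HasCompactSupport (phi174 β) := by
  obtain ⟨R, hR, hE, hzero⟩ := sliceE_isEvenTest174 hβ
  apply HasCompactSupport.of_support_subset_isCompact
    (K := (Icc (-R) R ×ˢ Icc (-R) R) ×ˢ Metric.closedBall (0 : ℂ) (√(2 * rexp R * cosh R)))
  · exact (isCompact_Icc.prod isCompact_Icc).prod (isCompact_closedBall _ _)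
  · rintro ⟨s, x⟩ hp
    rw [Function.mem_support, phi174_eq] at hp
    have hc : |s.1 + s.2| < R := by
      by_contra hcon
      rw [not_lt] at hcon
      apply hp
      have : sliceE β (s.1 + s.2) = fun _ => 0 := funext (hzero _ hcon)
      unfold gRad174
      rw [this, abelInv614_zero174, mul_zero]
    have hy : cosh (s.1 - s.2) + rexp (s.1 - s.2) / 2 * ‖x‖ ^ 2 ≤ cosh R := by
      by_contra hcon
      rw [not_le] at hcon
      exact hp (gRad174_eq_zero (hE _) hcon)
    have hpos : 0 ≤ rexp (s.1 - s.2) / 2 * ‖x‖ ^ 2 := by positivity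
    have hu : |s.1 - s.2| ≤ R := by
      have h1 : cosh (s.1 - s.2) ≤ cosh R := by linarith
      have := Real.cosh_le_cosh.1 h1
      rwa [abs_of_pos hR] at this
    have hx : ‖x‖ ^ 2 ≤ 2 * rexp R * cosh R := by
      have h1 : rexp (s.1 - s.2) / 2 * ‖x‖ ^ 2 ≤ cosh R := by
        linarith [Real.cosh_pos (s.1 - s.2)]
      have h2 : rexp (-R) ≤ rexp (s.1 - s.2) :=
        Real.exp_le_exp.2 (by linarith [(abs_le.1 hu).1])
      have h3 : rexp (-R) / 2 * ‖x‖ ^ 2 ≤ cosh R := by
        refine le_trans ?_ h1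
        gcongr
      have h4 : rexp R * rexp (-R) = 1 := by rw [← Real.exp_add, add_neg_cancel, Real.exp_zero]
      have h5 : ‖x‖ ^ 2 = 2 * rexp R * (rexp (-R) / 2 * ‖x‖ ^ 2) := by
        have : 2 * rexp R * (rexp (-R) / 2 * ‖x‖ ^ 2) = (rexp R * rexp (-R)) * ‖x‖ ^ 2 := by ring
        rw [this, h4, one_mul]
      rw [h5]
      have : 0 ≤ 2 * rexp R := by positivity
      exact mul_le_mul_of_nonneg_left h3 this
    rw [abs_lt] at hc
    rw [abs_le] at hu
    refine ⟨⟨⟨by linarith [hc.1, hu.1], by linarith [hc.2, hu.2]⟩,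
      ⟨by linarith [hc.1, hu.2], by linarith [hc.2, hu.1]⟩⟩, ?_⟩
    rw [Metric.mem_closedBall, dist_zero_right]
    exact Real.le_sqrt_of_sq_le hx

/-! ## 4. The linear change of variables -/

/-- `(c, u) ↦ ((c + u)/2, (c - u)/2)`. -/
def lin174 : (ℝ × ℝ) ≃ₗ[ℝ] (ℝ × ℝ) where
  toFun p := ((p.1 + p.2) / 2, (p.1 - p.2) / 2)
  invFun q := (q.1 + q.2, q.1 - q.2)
  map_add' := by
    intro p q
    ext
    · simp only [Prod.fst_add, Prod.snd_add]; ring
    · simp only [Prod.fst_add, Prod.snd_add]; ring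
  map_smul' := by
    intro r p
    ext
    · simp only [Prod.smul_fst, Prod.smul_snd, smul_eq_mul, RingHom.id_apply]; ring
    · simp only [Prod.smul_fst, Prod.smul_snd, smul_eq_mul, RingHom.id_apply]; ring
  left_inv := by
    intro p
    ext
    · dsimp only; ring
    · dsimp only; ring
  right_inv := by
    intro q
    ext
    · dsimp only; ring
    · dsimp only; ring

theorem lin174_apply (c u : ℝ) : lin174 (c, u) = ((c + u) / 2, (c - u) / 2) := rfl

theorem map_lin174 : ∃ κ : ENNReal, κ ≠ 0 ∧ κ ≠ ⊤ ∧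
    Measure.map (fun p : ℝ × ℝ => lin174 p) volume = κ • (volume : Measure (ℝ × ℝ)) := by
  have hdet : LinearMap.det (lin174 : (ℝ × ℝ) →ₗ[ℝ] (ℝ × ℝ)) ≠ 0 :=
    (LinearEquiv.isUnit_det' lin174).ne_zero
  refine ⟨ENNReal.ofReal |(LinearMap.det (lin174 : (ℝ × ℝ) →ₗ[ℝ] (ℝ × ℝ)))⁻¹|, ?_,
    ENNReal.ofReal_ne_top, ?_⟩
  · rw [Ne, ENNReal.ofReal_eq_zero, not_le]
    exact abs_pos.2 (inv_ne_zero hdet)
  · exact Measure.map_linearMap_addHaar_eq_smul_addHaar volume hdet

theorem measurableEmbedding_lin174 : MeasurableEmbedding (fun p : ℝ × ℝ => lin174 p) :=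
  lin174.toContinuousLinearEquiv.toHomeomorph.measurableEmbedding

/-! ## 5. The leaf -/

/-- **AS.2.6 `CalcC`** from the regularity leaf `RegC`. -/
theorem calcC_of_reg174 (hreg : RegC) : CalcC := by
  intro β hβ
  obtain ⟨R, hR, hE, hzero⟩ := sliceE_isEvenTest174 hβ
  have hΦi : Integrable (phi174 β)
      ((volume : Measure (ℝ × ℝ)).prod (volume : Measure ℂ)) :=
    (continuous_phi174 hreg hβ).integrable_of_hasCompactSupport (hasCompactSupport_phi174 hβ)
  have hH : Integrable (fun s : ℝ × ℝ => ∫ x : ℂ, phi174 β (s, x)) := hΦi.integral_prod_left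
  have hβi : Integrable β := hβ.1.continuous.integrable_of_hasCompactSupport hβ.2.1
  obtain ⟨κ, hκ0, hκt, hmap⟩ := map_lin174
  have hemb := measurableEmbedding_lin174
  have cv : ∀ F : ℝ × ℝ → ℂ, ∫ p, F (lin174 p) = κ.toReal • ∫ q, F q := by
    intro F
    rw [← hemb.integral_map, hmap, integral_smul_measure]
  have ci : ∀ F : ℝ × ℝ → ℂ, Integrable F → Integrable (fun p : ℝ × ℝ => F (lin174 p)) := by
    intro F hF
    have h1 : Integrable F (κ • (volume : Measure (ℝ × ℝ))) := hF.smul_measure hκt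
    rw [← hmap] at h1
    exact (hemb.integrable_map_iff).1 h1
  have hκr : κ.toReal ≠ 0 := (ENNReal.toReal_pos hκ0 hκt).ne'
  have main : ∫ p : ℝ × ℝ, (∫ x : ℂ, phi174 β (lin174 p, x))
      = ∫ p : ℝ × ℝ, β (lin174 p) := by
    have i1 := ci _ hH
    have i2 := ci _ hβi
    rw [Measure.volume_eq_prod] at i1 i2 ⊢
    rw [integral_prod _ i1, integral_prod _ i2]
    congr 1
    funext c
    have e1 : ∀ u : ℝ, (∫ x : ℂ, phi174 β (lin174 (c, u), x))
        = (2 * π * rexp (-u)) • gTail174 (sliceE β c) u := by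
      intro u
      rw [inner174, lin174_apply]
      have a1 : (c + u) / 2 - (c - u) / 2 = u := by ring
      have a2 : (c + u) / 2 + (c - u) / 2 = c := by ring
      simp only [a1, a2]
    simp only [e1]
    rw [integral_exp_gTail174 (hE c)]
    rfl
  have c1 : ∫ p : ℝ × ℝ, (∫ x : ℂ, phi174 β (lin174 p, x))
      = κ.toReal • ∫ s : ℝ × ℝ, ∫ x : ℂ, phi174 β (s, x) :=
    cv (fun s : ℝ × ℝ => ∫ x : ℂ, phi174 β (s, x))
  rw [c1, cv β] at main
  exact smul_right_injective ℂ hκr main

end Fermat.Agent.LT.T3.H174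

end
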